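import Fermat.Agent.Hochster.Monomial
import Mathlib.LinearAlgebra.LinearPMap
import Mathlib.RingTheory.AdicCompletion.Noetherian
import Mathlib.RingTheory.Ideal.GoingUp

/-!
# The direct summand theorem of Hochster in prime characteristic

The quotient of a regular local ring by powers of a regular system of parameters is
self-injective with simple socle. Hence the monomial theorem splits a finite extension modulo
all these ideals, and Krull's intersection theorem splits it.
-/

set_option autoImplicit false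

noncomputable section

universe u v

open IsLocalRing Finset

namespace Fermat.Agent.Hochster

/-- An element of a finite free module with components in an ideal. -/
theorem mem_smul_top_of_components {R : Type*} [CommRing R] {η : Type*} [Fintype η]
    {I : Ideal R} (z : (η → R) × R) (h1 : ∀ h, z.1 h ∈ I) (h2 : z.2 ∈ I) :
    z ∈ I • (⊤ : Submodule R ((η → R) × R)) := by
  classical
  rw [show z = (∑ h, z.1 h • ((Pi.single h 1, 0) : (η → R) × R)) + z.2 • (0, 1) from
    Prod.ext (by simp [Prod.fst_sum, Pi.single_apply, Finset.sum_apply, funext_iff])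
      (by simp [Prod.snd_sum])]
  exact add_mem (Submodule.sum_mem _ fun h _ => Submodule.smul_mem_smul (h1 h) Submodule.mem_top)
    (Submodule.smul_mem_smul h2 Submodule.mem_top)

variable {A : Type*} [CommRing A] {ι : Type*} [Fintype ι] [DecidableEq ι] {x : ι → A}

/-- Compatible values on the sequence are given by a multiplication. -/
theorem IsPermRegular.exists_mul_sub_mem (hx : IsPermRegular x) (t : ℕ) (c : ι → A)
    (h1 : ∀ i j, x j * c i - x i * c j ∈ fullPow x fun _ => t + 1)
    (h2 : ∀ i, x i ^ t * c i ∈ fullPow x fun _ => t + 1) (T : Finset ι) :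
    ∃ b, ∀ i ∈ T, x i * b - c i ∈ fullPow x fun _ => t + 1 := by
  induction T using Finset.induction with
  | empty => exact ⟨0, by simp⟩
  | insert j T hj ih =>
    obtain ⟨b, hb⟩ := ih
    -- exponents of colon ideals
    have hdelta : ∀ m, ∏ l, x l ^ (if l = j then m else 0) = x j ^ m := fun m => by
      rw [Finset.prod_eq_single j (fun l _ hl => by simp [hl]) (by simp), if_pos rfl]
    have hle : ∀ m, fullPow x (fun l => t + 1 - if l = j then m else 0) ≤
        fullPow x (fun _ => t + 1) ⊔ Ideal.span {x j ^ (t + 1 - m)} := fun m => by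
      refine Ideal.span_le.2 ?_
      rintro _ ⟨l, -, rfl⟩
      by_cases hl : l = j
      · subst hl
        exact Ideal.mem_sup_right (by simp)
      · exact Ideal.mem_sup_left (pow_mem_fullPow x _ l (by simp [hl]))
    have hcolon : ∀ m z, x j ^ m * z ∈ fullPow x (fun _ => t + 1) →
        z ∈ fullPow x fun l => t + 1 - if l = j then m else 0 := fun m z hz =>
      hx.colon _ _ (fun _ => Nat.le_add_left 1 t) z (by rwa [hdelta])
    obtain ⟨y, hy, u, hu, hcj⟩ := Submodule.mem_sup.1 (hle t (hcolon t _ (h2 j)))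
    rw [Nat.add_sub_cancel_left, pow_one] at hu
    obtain ⟨bj, rfl⟩ := Ideal.mem_span_singleton'.1 hu
    set e := bj - b with he
    have hxe : ∀ i ∈ T, x i * e ∈ fullPow x fun l => t + 1 - if l = j then 1 else 0 := by
      intro i hi
      refine hcolon 1 _ ?_
      rw [pow_one, show x j * (x i * e) =
          -(x j * c i - x i * c j) - x i * y - x j * (x i * b - c i) by
        rw [he, ← hcj]; ring]
      exact sub_mem (sub_mem (neg_mem (h1 i j)) (Ideal.mul_mem_left _ _ hy))
        (Ideal.mul_mem_left _ _ (hb i hi))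
    obtain ⟨y', hy', δ, hδ, heδ⟩ := Submodule.mem_sup.1 (hx.socle_finset _ T e hxe)
    refine ⟨b + δ, fun i hi => ?_⟩
    rcases Finset.mem_insert.1 hi with rfl | hiT
    · rw [show x i * (b + δ) - c i = -(x i * y') - y by
        rw [← hcj, show δ = bj - b - y' by rw [← he, ← heδ]; ring]; ring]
      refine sub_mem (neg_mem ?_) hy
      obtain ⟨y₁, hy₁, u, hu', rfl⟩ := Submodule.mem_sup.1 (hle 1 hy')
      obtain ⟨w, rfl⟩ := Ideal.mem_span_singleton'.1 hu'
      rw [mul_add, mul_left_comm, Nat.add_sub_cancel, ← pow_succ']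
      exact add_mem (Ideal.mul_mem_left _ _ hy₁)
        (Ideal.mul_mem_left _ _ (pow_mem_fullPow x _ i le_rfl))
    · rw [mul_add, add_sub_right_comm]
      refine add_mem (hb i hiT) ?_
      obtain ⟨w, rfl⟩ := Ideal.mem_span_singleton'.1 hδ
      rw [mul_left_comm, ← mul_prod_erase _ _ hiT, ← mul_assoc (x i)]
      refine Ideal.mul_mem_left _ _ (Ideal.mul_mem_right _ _ ?_)
      rw [← pow_succ']
      refine pow_mem_fullPow x _ i ?_
      simp [(ne_of_mem_of_not_mem hiT hj)]

variable (hx : IsPermRegular x)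

include hx in
/-- A linear map on the ideal of the sequence to the quotient is a multiplication. -/
theorem IsPermRegular.exists_smul_eq (t : ℕ) (g : Ideal.span (Set.range x) →ₗ[A]
      A ⧸ fullPow x fun _ => t + 1)
    (hg : ∀ a : Ideal.span (Set.range x), (a : A) ∈ (fullPow x fun _ => t + 1) → g a = 0) :
    ∃ b, ∀ a : Ideal.span (Set.range x), g a = (a : A) • b := by
  classical
  let X : ι → Ideal.span (Set.range x) := fun i => ⟨x i, Ideal.subset_span ⟨i, rfl⟩⟩
  choose c hc using fun i => Ideal.Quotient.mk_surjective (g (X i))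
  have hmk : ∀ a z, Ideal.Quotient.mk (fullPow x fun _ => t + 1) (a * z) =
      a • Ideal.Quotient.mk (fullPow x fun _ => t + 1) z := fun a z => rfl
  have h1 : ∀ i j, x j * c i - x i * c j ∈ fullPow x fun _ => t + 1 := fun i j => by
    rw [← Ideal.Quotient.eq, hmk, hmk, hc, hc, ← map_smul, ← map_smul]
    exact congrArg g (Subtype.ext (mul_comm _ _))
  have h2 : ∀ i, x i ^ t * c i ∈ fullPow x fun _ => t + 1 := fun i => by
    rw [← Ideal.Quotient.eq_zero_iff_mem, hmk, hc, ← map_smul]
    refine hg _ ?_
    change x i ^ t * x i ∈ fullPow x fun _ => t + 1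
    rw [← pow_succ]
    exact pow_mem_fullPow x _ i le_rfl
  obtain ⟨b, hb⟩ := hx.exists_mul_sub_mem t c h1 h2 univ
  refine ⟨Ideal.Quotient.mk (fullPow x fun _ => t + 1) b, fun ⟨a, ha⟩ => ?_⟩
  induction ha using Submodule.span_induction with
  | mem y hy =>
    obtain ⟨i, rfl⟩ := hy
    rw [show (⟨x i, _⟩ : Ideal.span (Set.range x)) = X i from rfl, ← hc, ← hmk]
    exact (Ideal.Quotient.eq.2 (hb i (mem_univ i))).symm
  | zero => exact (map_zero g).trans (zero_smul A _).symm
  | add y z hy hz h h' =>
    exact (map_add g ⟨y, hy⟩ ⟨z, hz⟩).trans ((congrArg₂ (· + ·) h h').trans (add_smul ..).symm)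
  | smul r y hy h =>
    exact (map_smul g r ⟨y, hy⟩).trans ((congrArg (r • ·) h).trans (smul_assoc r y _).symm)

include hx in
/-- **The quotient by powers of a regular system of parameters is self-injective.** -/
theorem IsPermRegular.exists_extension [IsLocalRing A] [IsNoetherianRing A]
    (hm : maximalIdeal A = Ideal.span (Set.range x)) (t : ℕ) {M : Type v} [AddCommGroup M]
    [Module A M] [Module.Finite A M] (hM : ∀ a ∈ (fullPow x fun _ => t + 1), ∀ z : M, a • z = 0)
    (f : M →ₗ.[A] A ⧸ fullPow x fun _ => t + 1) :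
    ∃ F : M →ₗ[A] A ⧸ fullPow x fun _ => t + 1, ∀ z : f.domain, F z = f z := by
  classical
  obtain ⟨D, ⟨G, hfG, rfl⟩, hmax⟩ := (set_has_maximal_iff_noetherian.2
    (inferInstance : IsNoetherian A M)) {N | ∃ G : M →ₗ.[A] A ⧸ fullPow x fun _ => t + 1, f ≤ G ∧
      G.domain = N}
    ⟨_, f, le_rfl, rfl⟩
  suffices h : G.domain = ⊤ by
    refine ⟨G.toFun ∘ₗ LinearMap.codRestrict G.domain LinearMap.id fun z => h ▸ Submodule.mem_top,
      fun z => (hfG.2 ?_).symm⟩
    rfl
  by_contra hne
  obtain ⟨n, hn⟩ := Ideal.exists_radical_pow_le_of_fg (fullPow x fun _ => t + 1)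
    (IsNoetherian.noetherian _)
  have hrad : maximalIdeal A ≤ (fullPow x fun _ => t + 1).radical := by
    rw [hm, Ideal.span_le]
    rintro _ ⟨i, rfl⟩
    exact ⟨t + 1, pow_mem_fullPow x _ i le_rfl⟩
  obtain ⟨g, hg, hmg⟩ : ∃ g ∉ G.domain, ∀ a ∈ maximalIdeal A, a • g ∈ G.domain := by
    by_contra hno
    push Not at hno
    refine hne (eq_top_iff.2 fun z _ => ?_)
    suffices ∀ j z, (∀ a ∈ maximalIdeal A ^ j, a • z ∈ G.domain) → z ∈ G.domain from
      this n z fun a ha => (hM a (hn (Ideal.pow_right_mono hrad n ha)) z).symm ▸ zero_mem _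
    intro j
    induction j with
    | zero => exact fun z hz => one_smul A z ▸ hz 1 (by simp)
    | succ j ih =>
      intro z hz
      by_contra hzG
      obtain ⟨a, ha, haz⟩ := hno z hzG
      refine haz (ih _ fun a' ha' => ?_)
      rw [smul_smul]
      exact hz _ (pow_succ (maximalIdeal A) j ▸ Ideal.mul_mem_mul ha' ha)
  let γ : Ideal.span (Set.range x) →ₗ[A] A ⧸ fullPow x fun _ => t + 1 :=
    G.toFun ∘ₗ LinearMap.codRestrict G.domain
    ((LinearMap.toSpanSingleton A M g) ∘ₗ Submodule.subtype _) fun a => hmg a (hm.ge a.2)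
  obtain ⟨b, hb⟩ := hx.exists_smul_eq t γ fun a ha => by
    refine (congrArg G.toFun (Subtype.ext ?_)).trans (map_zero _)
    exact hM a ha g
  have hker : ∀ a : A, a • g = 0 → (RingHom.id A) a • b = 0 := fun a ha => by
    have ham : a ∈ Ideal.span (Set.range x) := hm ▸ (mem_maximalIdeal a).2 fun hu =>
      hg (by rw [hu.smul_eq_zero.1 ha]; exact zero_mem _)
    rw [RingHom.id_apply, ← hb ⟨a, ham⟩]
    exact (congrArg G.toFun (Subtype.ext ha)).trans (map_zero _)
  set g' : M →ₗ.[A] A ⧸ fullPow x fun _ => t + 1 := LinearPMap.mkSpanSingleton' g b hker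
  have hcomp : ∀ (z : G.domain) (w : g'.domain), (z : M) = w → G z = g' w := by
    rintro z ⟨w, hw⟩ hzw
    obtain ⟨a, rfl⟩ := Submodule.mem_span_singleton.1 hw
    rw [LinearPMap.mkSpanSingleton'_apply, RingHom.id_apply]
    have ham : a ∈ Ideal.span (Set.range x) := hm ▸ (mem_maximalIdeal a).2 fun hu =>
      hg ((G.domain.smul_mem_iff_of_isUnit hu).1 (by
        have h := z.2; rwa [hzw] at h))
    rw [← hb ⟨a, ham⟩]
    exact congrArg G.toFun (Subtype.ext hzw)
  refine hmax _ ⟨G.sup g' hcomp, hfG.trans (G.left_le_sup g' hcomp), rfl⟩ ?_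
  rw [LinearPMap.domain_sup]
  exact lt_of_le_of_ne le_sup_left fun h =>
    hg (h ▸ Submodule.mem_sup_right (Submodule.mem_span_singleton_self g))

/-- **Hochster's direct summand theorem** in prime characteristic. -/
theorem direct_summand (R : Type u) [CommRing R] [IsRegularLocalRing R] (p : ℕ)
    [hp : Fact p.Prime] [CharP R p] (S : Type v) [CommRing S] [Algebra R S] [Module.Finite R S]
    (hinj : Function.Injective (algebraMap R S)) : ∃ π : S →ₗ[R] R, π 1 = 1 := by
  classical
  have : IsDomain R := RegularFactorial.isDomain_of_isRegularLocalRing R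
  obtain ⟨G, hG, hspan⟩ := Submodule.FG.exists_span_finset_card_eq_spanFinrank
    (IsNoetherian.noetherian (maximalIdeal R))
  let x : Fin (maximalIdeal R).spanFinrank → R := fun i => (G.equivFinOfCardEq hG).symm i
  have hm : maximalIdeal R = Ideal.span (Set.range x) := by
    conv_lhs => rw [← hspan]
    rw [show Set.range x = (G : Set R) from (EquivLike.range_comp Subtype.val
      (G.equivFinOfCardEq hG).symm).trans Subtype.range_coe]
  have hx : IsPermRegular x :=
    isPermRegular_of_dim x hm (IsRegularLocalRing.spanFinrank_maximalIdeal (R := R)).symm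
  have hxm : ∀ i, x i ∈ maximalIdeal R := fun i => hm ▸ Ideal.subset_span ⟨i, rfl⟩
  -- a prime over zero
  obtain ⟨P, -, hP, hP0⟩ := Ideal.exists_ideal_over_prime_of_isIntegral (⊥ : Ideal R) (⊥ : Ideal S)
    (by rw [← RingHom.ker_eq_comap_bot, (RingHom.injective_iff_ker_eq_bot _).1 hinj])
  have hinj' : Function.Injective (algebraMap R (S ⧸ P)) := by
    rw [RingHom.injective_iff_ker_eq_bot, ← hP0]
    ext z
    exact Ideal.Quotient.eq_zero_iff_mem
  have : CharP (S ⧸ P) p := (CharP.charP_iff_prime_eq_zero hp.out).2 (by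
    rw [← map_natCast (algebraMap R (S ⧸ P)), CharP.cast_eq_zero, map_zero])
  obtain ⟨θ, hθ⟩ := exists_functional R (S ⧸ P) hinj'
  -- the extension is split modulo the ideals of powers
  have hmod : ∀ t : ℕ, ∃ π : S →ₗ[R] R ⧸ fullPow x (fun _ => t + 1), π 1 = 1 := by
    intro t
    set I := fullPow x fun _ => t + 1 with hI
    set J := I.map (algebraMap R S)
    have hmon : algebraMap R S (∏ i, x i ^ t) ∉ J := fun h => by
      refine not_mem_of_functional hx hxm p θ hθ t ?_
      rw [IsScalarTower.algebraMap_eq R S (S ⧸ P), ← Ideal.map_map]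
      exact Ideal.mem_map_of_mem _ h
    have hpt : ∀ a : R, a • (Submodule.Quotient.mk (1 : S) : S ⧸ J) = 0 →
        (RingHom.id R) a • (1 : R ⧸ I) = 0 := by
      intro z hz
      rw [← Submodule.Quotient.mk_smul, Submodule.Quotient.mk_eq_zero, Algebra.smul_def,
        mul_one] at hz
      rw [RingHom.id_apply, Algebra.smul_def, mul_one, Ideal.Quotient.algebraMap_eq,
        Ideal.Quotient.eq_zero_iff_mem]
      obtain ⟨n, hn⟩ := Ideal.exists_radical_pow_le_of_fg I (IsNoetherian.noetherian _)
      have hrad : maximalIdeal R ≤ I.radical := by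
        rw [hm, Ideal.span_le]
        rintro _ ⟨i, rfl⟩
        exact ⟨t + 1, pow_mem_fullPow x _ i le_rfl⟩
      suffices ∀ j z, algebraMap R S z ∈ J → (∀ a ∈ maximalIdeal R ^ j, a * z ∈ I) → z ∈ I from
        this n z hz fun a ha => I.mul_mem_right z (hn (Ideal.pow_right_mono hrad n ha))
      intro j
      induction j with
      | zero => exact fun z _ h => one_mul z ▸ h 1 (by simp)
      | succ j ih =>
        intro z hzJ h
        have hxz : ∀ i, x i * z ∈ I := fun i => ih _
          (by rw [map_mul]; exact J.mul_mem_left _ hzJ) fun a ha => by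
            rw [← mul_assoc]
            exact h _ (pow_succ (maximalIdeal R) j ▸ Ideal.mul_mem_mul ha (hxm i))
        obtain ⟨y, hy, u, hu, rfl⟩ := Submodule.mem_sup.1 (hx.socle t z hxz)
        obtain ⟨w, rfl⟩ := Ideal.mem_span_singleton'.1 hu
        refine add_mem hy ?_
        by_cases hw : IsUnit w
        · refine absurd ?_ hmon
          rw [map_add, Ideal.add_mem_iff_right J (Ideal.mem_map_of_mem _ hy), map_mul] at hzJ
          exact (Ideal.unit_mul_mem_iff_mem J (hw.map _)).1 hzJ
        · rw [← mem_nonunits_iff, ← mem_maximalIdeal, hm] at hw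
          refine (Ideal.span_le.2 ?_ : Ideal.span (Set.range x) ≤
            Submodule.comap (LinearMap.toSpanSingleton R R (∏ i, x i ^ t)) I) hw
          rintro _ ⟨i, rfl⟩
          change x i * ∏ i, x i ^ t ∈ I
          rw [← mul_prod_erase _ _ (mem_univ i), ← mul_assoc, ← pow_succ']
          exact I.mul_mem_right _ (pow_mem_fullPow x _ i le_rfl)
    obtain ⟨F, hF⟩ := hx.exists_extension hm t (M := S ⧸ J) (fun a ha z => by
      obtain ⟨s, rfl⟩ := Submodule.Quotient.mk_surjective J z
      rw [← Submodule.Quotient.mk_smul, Submodule.Quotient.mk_eq_zero, Algebra.smul_def]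
      exact J.mul_mem_right _ (Ideal.mem_map_of_mem _ ha))
      (LinearPMap.mkSpanSingleton' (Submodule.Quotient.mk (1 : S) : S ⧸ J) 1 hpt)
    refine ⟨F ∘ₗ (Submodule.mkQ J).restrictScalars R, ?_⟩
    exact (hF ⟨_, Submodule.mem_span_singleton_self _⟩).trans
      (LinearPMap.mkSpanSingleton'_apply_self _ _ hpt _)
  -- lift by Krull
  obtain ⟨n, F, hF⟩ := Module.Finite.exists_fin' R S
  obtain ⟨u, hu⟩ := hF 1
  obtain ⟨H, hH⟩ := IsNoetherian.noetherian (LinearMap.ker F)
  let Λ : (Fin n → R) →ₗ[R] (H → R) × R :=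
    (LinearMap.pi fun h : H => Fintype.linearCombination R (h : Fin n → R)).prod
      (Fintype.linearCombination R u)
  have key : ∀ j, ((0, 1) : (H → R) × R) ∈ LinearMap.range Λ ⊔
      (maximalIdeal R ^ j) • (⊤ : Submodule R ((H → R) × R)) := by
    intro j
    obtain ⟨π, hπ⟩ := hmod j
    choose v hv using fun i => Ideal.Quotient.mk_surjective
      (π (F (Pi.single i 1)))
    have hval : ∀ w : Fin n → R, Ideal.Quotient.mk _ (Fintype.linearCombination R w v) =
        π (F w) := fun w => by
      conv_rhs => rw [← Finset.univ_sum_single w]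
      rw [Fintype.linearCombination_apply, map_sum, map_sum, map_sum]
      refine Finset.sum_congr rfl fun i _ => ?_
      rw [smul_eq_mul, mul_comm, map_mul, hv,
        show Pi.single i (w i) = w i • Pi.single i (1 : R) by rw [← Pi.single_smul', smul_eq_mul,
          mul_one], map_smul, map_smul]
      rfl
    have hpow : ∀ z ∈ (fullPow x fun _ => j + 1), z ∈ maximalIdeal R ^ j := fun z hz =>
      Ideal.pow_le_pow_right j.le_succ (fullPow_le_pow hxm _ hz)
    refine Submodule.mem_sup.2 ⟨Λ v, ⟨v, rfl⟩, (0, 1) - Λ v, ?_, add_sub_cancel _ _⟩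
    refine mem_smul_top_of_components _ (fun h => ?_) ?_
    · refine hpow _ (Ideal.Quotient.eq_zero_iff_mem.1 ?_)
      rw [Prod.fst_sub, Pi.sub_apply, map_sub, show (Λ v).1 h = _ from rfl]
      simp only [Pi.zero_apply, map_zero, zero_sub, neg_eq_zero]
      exact (hval _).trans (by
        rw [show F (h : Fin n → R) = 0 from hH.le (Submodule.subset_span h.2), map_zero])
    · refine hpow _ (Ideal.Quotient.eq_zero_iff_mem.1 ?_)
      rw [Prod.snd_sub, map_sub, map_one, show (Λ v).2 = _ from rfl]
      exact sub_eq_zero.2 ((hval _).trans (by rw [hu, hπ])).symm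
  have hmem : ((0, 1) : (H → R) × R) ∈ LinearMap.range Λ := by
    rw [← Submodule.Quotient.mk_eq_zero]
    refine IsHausdorff.haus' (I := maximalIdeal R) _ fun j => ?_
    rw [SModEq.zero]
    obtain ⟨y, hy, z, hz, hyz⟩ := Submodule.mem_sup.1 (key j)
    rw [← hyz, Submodule.Quotient.mk_add, (Submodule.Quotient.mk_eq_zero _).2 hy, zero_add]
    exact (Submodule.map_smul'' _ _ (Submodule.mkQ _)).le.trans
      (Submodule.smul_mono le_rfl le_top) (Submodule.mem_map_of_mem hz)
  obtain ⟨v, hv⟩ := hmem
  have hcomm : ∀ a b : Fin n → R,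
      Fintype.linearCombination R a b = Fintype.linearCombination R b a := fun a b => by
    simp [Fintype.linearCombination_apply, mul_comm]
  have hker : LinearMap.ker F ≤ LinearMap.ker (Fintype.linearCombination R v) := by
    rw [← hH, Submodule.span_le]
    intro h hh
    rw [SetLike.mem_coe, LinearMap.mem_ker, hcomm]
    exact congrFun (congrArg Prod.fst hv) ⟨h, hh⟩
  refine ⟨(LinearMap.ker F).liftQ _ hker ∘ₗ (F.quotKerEquivOfSurjective hF).symm.toLinearMap, ?_⟩
  rw [LinearMap.comp_apply, LinearEquiv.coe_coe, show (F.quotKerEquivOfSurjective hF).symm 1 =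
    Submodule.Quotient.mk u from (LinearEquiv.symm_apply_eq _).2 hu.symm, Submodule.liftQ_apply,
    hcomm]
  exact congrArg Prod.snd hv

end Fermat.Agent.Hochster
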