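import Fermat.Agent.Hochster.RegularSequence
import Mathlib.Algebra.CharP.Frobenius
import Mathlib.RingTheory.AdicCompletion.Noetherian
import Mathlib.RingTheory.Filtration
import Mathlib.RingTheory.Flat.Tensor
import Mathlib.RingTheory.RingHom.Flat
import Mathlib.LinearAlgebra.TensorProduct.RightExactness
import Mathlib.RingTheory.TensorProduct.Finite

/-!
# The flatness theorem of Kunz

If the maximal ideal of a noetherian local ring is generated by a sequence which is regular on a
local noetherian algebra, the algebra is flat. In particular the Frobenius endomorphism of a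
regular local ring is flat.
-/

set_option autoImplicit false

noncomputable section

universe u v

open IsLocalRing LinearMap
open scoped TensorProduct

namespace Fermat.Agent.Hochster

variable {R : Type u} [CommRing R] {S : Type v} [CommRing S] [Algebra R S]

/-- The kernel of a larger ideal receives that of a smaller one. -/
theorem lTensor_inclusion_eq_zero {I I' : Ideal R} (h : I ≤ I')
    (hI' : Function.Injective (I'.subtype.lTensor S)) {z : S ⊗[R] I}
    (hz : I.subtype.lTensor S z = 0) : (Submodule.inclusion h).lTensor S z = 0 := by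
  refine hI' ?_
  rw [map_zero, ← lTensor_comp_apply]
  exact hz

/-- An element of `S ⊗ I` with `I` generated by a regular sequence. -/
theorem lTensor_subtype_injective_of_regular {d : ℕ} (x : Fin d → R)
    (hreg : ∀ (i : Fin d) (s : S), algebraMap R S (x i) * s ∈
      (Ideal.span (x '' {j | (j : ℕ) < i})).map (algebraMap R S) →
      s ∈ (Ideal.span (x '' {j | (j : ℕ) < i})).map (algebraMap R S)) :
    ∀ k ≤ d, Function.Injective ((Ideal.span (x '' {j | (j : ℕ) < k})).subtype.lTensor S) := by
  intro k
  induction k with
  | zero =>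
    intro _ z w _
    have hbot : Ideal.span (x '' {j | (j : ℕ) < 0}) = (⊥ : Ideal R) := by simp
    have : Subsingleton (Ideal.span (x '' {j | (j : ℕ) < 0})) :=
      hbot ▸ inferInstanceAs (Subsingleton (⊥ : Ideal R))
    have : Subsingleton (S ⊗[R] Ideal.span (x '' {j | (j : ℕ) < 0})) := inferInstance
    exact Subsingleton.elim z w
  | succ k ih =>
    intro hk
    have ih := ih (by omega)
    set J' := Ideal.span (x '' {j | (j : ℕ) < k}) with hJ'
    set i : Fin d := ⟨k, by omega⟩
    set J := Ideal.span (x '' {j | (j : ℕ) < k + 1}) with hJdef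
    have hle : J' ≤ J := Ideal.span_mono (Set.image_mono fun j (hj : (j : ℕ) < k) => by
      show (j : ℕ) < k + 1; omega)
    have hxJ : x i ∈ J := Ideal.subset_span ⟨i, show k < k + 1 by omega, rfl⟩
    have hJ : J = Ideal.span {x i} ⊔ J' := by
      rw [hJdef, hJ', ← Ideal.span_union]
      refine congrArg Ideal.span ?_
      ext r
      simp only [Set.mem_image, Set.mem_ofPred_eq, Set.mem_union, Set.mem_singleton_iff]
      constructor
      · rintro ⟨j, hj, rfl⟩
        rcases (by omega : (j : ℕ) = k ∨ (j : ℕ) < k) with h | h
        · exact .inl (congrArg x (Fin.ext h))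
        · exact .inr ⟨j, h, rfl⟩
      · rintro (rfl | ⟨j, hj, rfl⟩)
        · exact ⟨i, show k < k + 1 by omega, rfl⟩
        · exact ⟨j, by omega, rfl⟩
    have hgen : ∀ z : S ⊗[R] J, ∃ z' s, z = (Submodule.inclusion hle).lTensor S z' +
        s ⊗ₜ[R] (⟨x i, hxJ⟩ : J) := by
      intro z
      induction z using TensorProduct.induction_on with
      | zero => exact ⟨0, 0, by simp⟩
      | tmul s j =>
        obtain ⟨c, j', hj', hcj⟩ := Ideal.mem_span_singleton_sup.1 (hJ.le j.2)
        refine ⟨s ⊗ₜ ⟨j', hj'⟩, c • s, ?_⟩
        rw [lTensor_tmul, TensorProduct.smul_tmul, ← TensorProduct.tmul_add]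
        exact congrArg (s ⊗ₜ[R] ·) (Subtype.ext (by simpa [add_comm] using hcj.symm))
      | add a b ha hb =>
        obtain ⟨a', sa, rfl⟩ := ha
        obtain ⟨b', sb, rfl⟩ := hb
        exact ⟨a' + b', sa + sb, by rw [map_add, TensorProduct.add_tmul]; abel⟩
    refine (injective_iff_map_eq_zero _).2 fun z hz => ?_
    obtain ⟨z', s, rfl⟩ := hgen z
    have hmem : ∀ w : S ⊗[R] J', TensorProduct.rid R S (J'.subtype.lTensor S w) ∈
        J'.map (algebraMap R S) := by
      intro w
      induction w using TensorProduct.induction_on with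
      | zero => simp
      | tmul s j =>
        rw [lTensor_tmul, TensorProduct.rid_tmul, Submodule.subtype_apply, Algebra.smul_def]
        exact Ideal.mul_mem_right _ _ (Ideal.mem_map_of_mem _ j.2)
      | add a b ha hb => rw [map_add, map_add]; exact add_mem ha hb
    rw [map_add, ← lTensor_comp_apply,
      show J.subtype ∘ₗ Submodule.inclusion hle = J'.subtype from rfl, lTensor_tmul] at hz
    have h1 := congrArg (TensorProduct.rid R S) hz
    rw [map_add, TensorProduct.rid_tmul, map_zero, Submodule.subtype_apply,
      Algebra.smul_def] at h1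
    have hs : s ∈ J'.map (algebraMap R S) := hreg i s (by
      rw [show algebraMap R S (x i) * s = -TensorProduct.rid R S (J'.subtype.lTensor S z') from
        eq_neg_of_add_eq_zero_right h1]
      exact neg_mem (hmem z'))
    obtain ⟨w, hw⟩ : ∃ w, s ⊗ₜ[R] (⟨x i, hxJ⟩ : J) = (Submodule.inclusion hle).lTensor S w := by
      clear h1 hz
      rw [Ideal.map] at hs
      induction hs using Submodule.span_induction with
      | mem y hy =>
        obtain ⟨a, ha, rfl⟩ := hy
        refine ⟨(1 : S) ⊗ₜ ⟨a * x i, J'.mul_mem_right _ ha⟩, ?_⟩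
        rw [lTensor_tmul, ← mul_one (algebraMap R S a), ← Algebra.smul_def,
          TensorProduct.smul_tmul]
        rfl
      | zero => exact ⟨0, by simp⟩
      | add a b _ _ ha hb =>
        obtain ⟨wa, hwa⟩ := ha
        obtain ⟨wb, hwb⟩ := hb
        exact ⟨wa + wb, by rw [TensorProduct.add_tmul, hwa, hwb, map_add]⟩
      | smul c a _ ha =>
        obtain ⟨w, hw⟩ := ha
        refine ⟨c • w, ?_⟩
        have h := congrArg (c • ·) hw
        simp only [TensorProduct.smul_tmul'] at h
        refine h.trans ?_
        exact (LinearMap.map_smul (TensorProduct.AlgebraTensorModule.lTensor S S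
          (Submodule.inclusion hle)) c w).symm
    rw [hw, ← map_add]
    have h2 : z' + w = 0 := ih (by
      rw [map_zero, map_add]
      refine (TensorProduct.rid R S).injective ?_
      rw [map_zero, map_add, ← h1]
      refine congrArg (_ + ·) ?_
      have h3 := congrArg (fun v => TensorProduct.rid R S (J.subtype.lTensor S v)) hw
      simp only [← lTensor_comp_apply] at h3
      rw [lTensor_tmul, TensorProduct.rid_tmul, Submodule.subtype_apply, Algebra.smul_def] at h3
      exact h3.symm)
    rw [h2, map_zero]

variable [IsLocalRing R] [IsNoetherianRing R]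

/-- **The criterion of flatness** by a regular sequence generating the maximal ideal. -/
theorem flat_of_regular [IsLocalRing S] [IsNoetherianRing S] {d : ℕ} (x : Fin d → R)
    (hgen : maximalIdeal R = Ideal.span (Set.range x))
    (hloc : (maximalIdeal R).map (algebraMap R S) ≤ maximalIdeal S)
    (hreg : ∀ (i : Fin d) (s : S), algebraMap R S (x i) * s ∈
      (Ideal.span (x '' {j | (j : ℕ) < i})).map (algebraMap R S) →
      s ∈ (Ideal.span (x '' {j | (j : ℕ) < i})).map (algebraMap R S)) :
    Module.Flat R S := by
  classical
  set m := maximalIdeal R with hm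
  have hmax : Function.Injective (m.subtype.lTensor S) := by
    have h := lTensor_subtype_injective_of_regular x hreg d le_rfl
    rwa [show x '' {j | (j : ℕ) < d} = Set.range x by simp, ← hgen] at h
  -- ideals containing a power of the maximal ideal
  have hbig : ∀ (I : Ideal R) (N : ℕ), m ^ N ≤ I → Function.Injective (I.subtype.lTensor S) := by
    intro I
    induction I using WellFoundedGT.induction with
    | _ I ih =>
    intro N hN
    refine (injective_iff_map_eq_zero _).2 fun z hz => ?_
    by_cases htop : I = ⊤
    · subst htop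
      refine (TensorProduct.congr (LinearEquiv.refl R S) Submodule.topEquiv).injective ?_
      rw [map_zero]
      exact hz
    obtain ⟨a, ha, hma⟩ : ∃ a ∉ I, ∀ r ∈ m, r * a ∈ I := by
      by_contra hno
      push Not at hno
      refine htop ((Ideal.eq_top_iff_one _).2 ?_)
      suffices ∀ j z, (∀ r ∈ m ^ j, r * z ∈ I) → z ∈ I from
        this N 1 fun r hr => by rw [mul_one]; exact hN hr
      intro j
      induction j with
      | zero => exact fun z hz => one_mul z ▸ hz 1 (by simp)
      | succ j ih' =>
        intro z hz
        by_contra hzI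
        obtain ⟨r, hr, hrz⟩ := hno z hzI
        refine hrz (ih' _ fun r' hr' => ?_)
        rw [← mul_assoc]
        exact hz _ (pow_succ m j ▸ Ideal.mul_mem_mul hr' hr)
    set I' := I ⊔ Ideal.span {a}
    have haI' : a ∈ I' := Submodule.mem_sup_right (Ideal.mem_span_singleton_self a)
    have hlt : I < I' := lt_of_le_of_ne le_sup_left fun h => ha (h ▸ haI')
    have hzero := lTensor_inclusion_eq_zero hlt.le (ih I' hlt N (hN.trans hlt.le)) hz
    set β : (I × R) →ₗ[R] I' :=
      (Submodule.inclusion hlt.le).coprod (LinearMap.toSpanSingleton R I' ⟨a, haI'⟩)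
    set α : m →ₗ[R] (I × R) := (LinearMap.codRestrict I ((LinearMap.toSpanSingleton R R a) ∘ₗ
      m.subtype) fun r => hma r r.2).prod (-m.subtype)
    have hsurj : Function.Surjective β := fun ⟨y, hy⟩ => by
      obtain ⟨i, hi, u, hu, rfl⟩ := Submodule.mem_sup.1 hy
      obtain ⟨r, rfl⟩ := Ideal.mem_span_singleton'.1 hu
      exact ⟨(⟨i, hi⟩, r), Subtype.ext (by simp [β])⟩
    have hex : Function.Exact α β := fun ⟨i, r⟩ => by
      constructor
      · intro h
        have h' : (i : R) + r * a = 0 := by simpa [β] using congrArg Subtype.val h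
        have hr : r ∈ m := fun hu => ha <| (Ideal.unit_mul_mem_iff_mem I hu).1 (by
          rw [eq_neg_of_add_eq_zero_right h']
          exact neg_mem i.2)
        refine ⟨-⟨r, hr⟩, ?_⟩
        ext
        · simp [α, eq_neg_of_add_eq_zero_left h']
        · simp [α]
      · rintro ⟨w, hw⟩
        rw [← hw]
        ext
        simp [α, β]
    obtain ⟨w, hw⟩ := (lTensor_exact S hex hsurj ((LinearMap.inl R I R).lTensor S z)).1 (by
      rw [← lTensor_comp_apply, LinearMap.coprod_inl]
      exact hzero)
    have h1 := congrArg ((LinearMap.snd R I R).lTensor S) hw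
    rw [← lTensor_comp_apply, ← lTensor_comp_apply, LinearMap.snd_comp_inl, lTensor_zero,
      LinearMap.zero_apply, LinearMap.snd_prod, lTensor_neg, LinearMap.neg_apply,
      neg_eq_zero] at h1
    rw [hmax (h1.trans (map_zero _).symm), map_zero] at hw
    have h2 := congrArg ((LinearMap.fst R I R).lTensor S) hw
    rwa [map_zero, ← lTensor_comp_apply, LinearMap.fst_comp_inl, lTensor_id, LinearMap.id_apply,
      eq_comm] at h2
  refine Module.Flat.iff_lTensor_injective'.2 fun I =>
    (injective_iff_map_eq_zero _).2 fun z hz => ?_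
  obtain ⟨c, hc⟩ := Ideal.exists_pow_inf_eq_pow_smul m (M := R) I
  refine IsHausdorff.haus' (I := maximalIdeal S) z fun j => ?_
  rw [SModEq.zero]
  set M := m ^ (j + c)
  have hzero := lTensor_inclusion_eq_zero (le_sup_left : I ≤ I ⊔ M)
    (hbig _ (j + c) le_sup_right) hz
  set β : (I × M) →ₗ[R] ↥(I ⊔ M) :=
    (Submodule.inclusion le_sup_left).coprod (Submodule.inclusion le_sup_right)
  set α : ↥(I ⊓ M) →ₗ[R] (I × M) :=
    (Submodule.inclusion inf_le_left).prod (-Submodule.inclusion inf_le_right)
  have hsurj : Function.Surjective β := fun ⟨y, hy⟩ => by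
    obtain ⟨i, hi, u, hu, rfl⟩ := Submodule.mem_sup.1 hy
    exact ⟨(⟨i, hi⟩, ⟨u, hu⟩), Subtype.ext (by simp [β])⟩
  have hex : Function.Exact α β := fun ⟨i, r⟩ => by
    constructor
    · intro h
      have h' : (i : R) + r = 0 := by simpa [β] using congrArg Subtype.val h
      refine ⟨⟨i, i.2, eq_neg_of_add_eq_zero_left h' ▸ neg_mem r.2⟩, ?_⟩
      ext
      · simp [α]
      · simp [α, eq_neg_of_add_eq_zero_left h']
    · rintro ⟨w, hw⟩
      rw [← hw]
      ext
      simp [α, β]
  obtain ⟨w, hw⟩ := (lTensor_exact S hex hsurj ((LinearMap.inl R I M).lTensor S z)).1 (by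
    rw [← lTensor_comp_apply, LinearMap.coprod_inl]
    exact hzero)
  have h2 := congrArg ((LinearMap.fst R I M).lTensor S) hw
  rw [← lTensor_comp_apply, ← lTensor_comp_apply, LinearMap.fst_comp_inl, LinearMap.fst_prod,
    lTensor_id, LinearMap.id_apply] at h2
  rw [← h2]
  clear hw h2
  induction w using TensorProduct.induction_on with
  | zero => simp
  | add a b ha hb => rw [map_add]; exact add_mem ha hb
  | tmul s y =>
    rw [lTensor_tmul]
    have hy : Submodule.inclusion inf_le_left y ∈ (m ^ j • ⊤ : Submodule R I) := by
      rw [← Submodule.comap_map_eq_of_injective I.injective_subtype (m ^ j • ⊤),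
        Submodule.mem_comap, Submodule.map_smul'', Submodule.map_top, Submodule.range_subtype]
      have h3 := hc (j + c) (Nat.le_add_left c j)
      rw [Nat.add_sub_cancel] at h3
      refine Submodule.smul_mono le_rfl inf_le_right (h3.le ?_)
      exact ⟨by simpa using y.2.2, y.2.1⟩
    generalize Submodule.inclusion inf_le_left y = y' at hy
    induction hy using Submodule.smul_induction_on' with
    | smul r hr n _ =>
      rw [TensorProduct.tmul_smul, ← algebraMap_smul S r (s ⊗ₜ[R] n)]
      refine Submodule.smul_mem_smul (Ideal.pow_right_mono hloc j ?_) Submodule.mem_top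
      rw [← Ideal.map_pow]
      exact Ideal.mem_map_of_mem _ hr
    | add a _ b _ ha hb => rw [TensorProduct.tmul_add]; exact add_mem ha hb

/-- **Kunz**: the Frobenius endomorphism of a regular local ring is flat. -/
theorem kunz_frobenius_flat (R : Type u) [CommRing R] [IsRegularLocalRing R] (p : ℕ)
    [hp : Fact p.Prime] [CharP R p] : (frobenius R p).Flat := by
  classical
  obtain ⟨G, hG, hspan⟩ := Submodule.FG.exists_span_finset_card_eq_spanFinrank
    (IsNoetherian.noetherian (maximalIdeal R))
  let x : Fin (maximalIdeal R).spanFinrank → R := fun i => (G.equivFinOfCardEq hG).symm i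
  have hm : maximalIdeal R = Ideal.span (Set.range x) := by
    conv_lhs => rw [← hspan]
    rw [show Set.range x = (G : Set R) from (EquivLike.range_comp Subtype.val
      (G.equivFinOfCardEq hG).symm).trans Subtype.range_coe]
  have hx : IsPermRegular x :=
    isPermRegular_of_dim x hm (IsRegularLocalRing.spanFinrank_maximalIdeal (R := R)).symm
  refine @flat_of_regular R _ R _ (frobenius R p).toAlgebra _ _ _ _ _ x hm ?_ ?_
  · rw [RingHom.algebraMap_toAlgebra, Ideal.map_le_iff_le_comap]
    exact fun r hr => Ideal.pow_mem_of_mem _ hr p hp.out.pos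
  · intro i s hs
    change frobenius R p (x i) * s ∈ Ideal.map (frobenius R p) _ at hs
    show s ∈ Ideal.map (frobenius R p) _
    rw [_root_.frobenius_def, Ideal.map_span, ← Set.image_comp] at hs
    rw [Ideal.map_span, ← Set.image_comp]
    set T := Finset.univ.filter
      fun j : Fin (maximalIdeal R).spanFinrank => (j : ℕ) < i with hT
    have hco : Ideal.span ((frobenius R p ∘ x) '' {j | (j : ℕ) < i}) =
        powIdeal x (fun _ => p) T := by
      rw [powIdeal, hT, Finset.coe_filter]
      simp only [Finset.mem_univ, true_and]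
      rfl
    rw [hco] at hs ⊢
    have hi : i ∉ T := by simp [hT]
    suffices ∀ n b, x i ^ n * b ∈ powIdeal x (fun _ => p) T → b ∈ powIdeal x (fun _ => p) T from
      this p s hs
    intro n
    induction n with
    | zero => intro b hb; simpa using hb
    | succ n ih =>
      intro b hb
      rw [pow_succ, mul_assoc] at hb
      exact hx.mem_powIdeal _ (fun _ => hp.out.pos) T i hi b (ih _ hb)

end Fermat.Agent.Hochster
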