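import Fermat.Agent.Hochster.RegularSequence
import Fermat.Agent.CohenStructure.Structure
import Fermat.Agent.Patch.Eval
import Fermat.Prelude.Thm_IsAdicComplete_of_module_finite
import Mathlib.Algebra.CharP.Frobenius
import Mathlib.RingTheory.AdicCompletion.AsTensorProduct
import Mathlib.RingTheory.AdicCompletion.LocalRing
import Mathlib.RingTheory.Ideal.GoingDown
import Mathlib.RingTheory.Ideal.GoingUp
import Mathlib.RingTheory.Localization.BaseChange
import Mathlib.RingTheory.Localization.FractionRing

/-!
# The monomial theorem of Hochster in prime characteristic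
-/

set_option autoImplicit false

noncomputable section

universe u v

open IsLocalRing Finset
open scoped TensorProduct

namespace Fermat.Agent.Hochster

/-- Linear functionals send extended ideals into the ideal. -/
theorem apply_mem_of_mem_map {A S : Type*} [CommRing A] [CommRing S] [Algebra A S] (θ : S →ₗ[A] A)
    {I : Ideal A} {s : S} (hs : s ∈ I.map (algebraMap A S)) : θ s ∈ I := by
  suffices ∀ z, θ (z * s) ∈ I by simpa using this 1
  rw [Ideal.map] at hs
  induction hs using Submodule.span_induction with
  | mem y hy =>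
    obtain ⟨a, ha, rfl⟩ := hy
    intro z
    rw [mul_comm z, ← Algebra.smul_def, map_smul, smul_eq_mul]
    exact I.mul_mem_right _ ha
  | zero => simp
  | add y y' _ _ h h' => intro z; rw [mul_add, map_add]; exact add_mem (h z) (h' z)
  | smul c y _ h => intro z; rw [smul_eq_mul, ← mul_assoc]; exact h _

/-- **Hochster's argument**: a functional which is non-zero at `1` forbids monomial relations. -/
theorem not_mem_of_functional {A : Type*} [CommRing A] [IsLocalRing A] [IsNoetherianRing A]
    {ι : Type*} [Fintype ι] [DecidableEq ι] {x : ι → A} (hx : IsPermRegular x)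
    (hxm : ∀ i, x i ∈ maximalIdeal A) {S : Type*} [CommRing S] [Algebra A S]
    (p : ℕ) [hp : Fact p.Prime] [CharP S p] (θ : S →ₗ[A] A) (hθ : θ 1 ≠ 0) (t : ℕ) :
    algebraMap A S (∏ i, x i ^ t) ∉ (fullPow x fun _ => t + 1).map (algebraMap A S) := by
  intro h
  refine hθ ?_
  have key : ∀ N, θ 1 ∈ maximalIdeal A ^ N := fun N => by
    have : ExpChar S p := .prime hp.out
    set q := p ^ N with hq
    have hNq : N ≤ q := (Nat.lt_pow_self hp.out.one_lt).le
    refine Ideal.pow_le_pow_right hNq (fullPow_le_pow hxm q ?_)
    have h1 := Ideal.mem_map_of_mem (iterateFrobenius S p N) h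
    rw [fullPow, powIdeal, Ideal.map_span, Ideal.map_span, ← Set.image_comp,
      ← Set.image_comp] at h1
    have h2 : algebraMap A S (∏ i, x i ^ (t * q)) ∈
        (fullPow x fun _ => (t + 1) * q).map (algebraMap A S) := by
      rw [fullPow, powIdeal, Ideal.map_span, ← Set.image_comp]
      simpa only [Function.comp_def, iterateFrobenius_def, ← hq, ← map_pow, ← pow_mul,
        ← prod_pow] using h1
    have h3 := apply_mem_of_mem_map θ h2
    rw [show algebraMap A S (∏ i, x i ^ (t * q)) = (∏ i, x i ^ (t * q)) • (1 : S) by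
      rw [Algebra.smul_def, mul_one], map_smul, smul_eq_mul] at h3
    have h4 := hx.colon _ (fun _ => t * q)
      (fun _ => Nat.one_le_iff_ne_zero.2 (Nat.mul_ne_zero (by omega) (pow_pos hp.out.pos N).ne'))
      _ h3
    rwa [show (fun _ : ι => q) = fun _ => (t + 1) * q - t * q from
      funext fun _ => by rw [add_mul, one_mul, Nat.add_sub_cancel_left]]
  rw [← Ideal.mem_bot, ← Ideal.iInf_pow_eq_bot_of_isLocalRing (maximalIdeal A)
    (maximalIdeal.isMaximal A).ne_top]
  exact Ideal.mem_iInf.2 key

/-- A finite extension of a domain has a functional which is non-zero at `1`. -/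
theorem exists_functional (A : Type u) (B : Type v) [CommRing A] [IsDomain A] [CommRing B]
    [Algebra A B] [Module.Finite A B] (hinj : Function.Injective (algebraMap A B)) :
    ∃ θ : B →ₗ[A] A, θ 1 ≠ 0 := by
  classical
  set K := FractionRing A
  set f := TensorProduct.mk A K B 1
  have hne : f 1 ≠ 0 := fun h => by
    obtain ⟨c, hc⟩ := (IsLocalizedModule.eq_zero_iff (nonZeroDivisors A) f).1 h
    refine nonZeroDivisors.coe_ne_zero c (hinj ?_)
    rw [map_zero, ← hc, Submonoid.smul_def, Algebra.smul_def, mul_one]
  let b := Module.Free.chooseBasis K (K ⊗[A] B)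
  obtain ⟨i, hi⟩ := Finsupp.ne_iff.1 (fun h => hne (b.repr.injective (h.trans (map_zero _).symm)))
  let g : B →ₗ[A] K := ((b.coord i).restrictScalars A) ∘ₗ f
  obtain ⟨G, hG⟩ := Module.Finite.fg_top (R := A) (M := B)
  obtain ⟨c, hc⟩ :=
    IsLocalization.exist_integer_multiples_of_finset (nonZeroDivisors A) (G.image g)
  have hint : ∀ z, ∃ a : A, algebraMap A K a = (c : A) • g z := fun z => by
    have hz : z ∈ Submodule.span A (G : Set B) := hG ▸ Submodule.mem_top
    induction hz using Submodule.span_induction with
    | mem y hy => exact hc _ (Finset.mem_image_of_mem g hy)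
    | zero => exact ⟨0, by simp⟩
    | add y y' _ _ h h' =>
      obtain ⟨a, ha⟩ := h
      obtain ⟨a', ha'⟩ := h'
      exact ⟨a + a', by rw [map_add, ha, ha', map_add, smul_add]⟩
    | smul r y _ h =>
      obtain ⟨a, ha⟩ := h
      exact ⟨r * a, by rw [map_mul, ha, map_smul, smul_comm, Algebra.smul_def r]⟩
  choose h hh using hint
  have hKinj := IsFractionRing.injective A K
  refine ⟨{ toFun := h, map_add' := fun y y' => hKinj ?_, map_smul' := fun r y => hKinj ?_ },
    fun h1 => ?_⟩
  · rw [map_add, hh, hh, hh, map_add, smul_add]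
  · rw [RingHom.id_apply, smul_eq_mul, map_mul, hh, hh, map_smul, smul_comm, Algebra.smul_def r]
  · have h2 := hh 1
    rw [show h 1 = 0 from h1, map_zero] at h2
    exact (smul_ne_zero (nonZeroDivisors.coe_ne_zero c) hi) (by simpa [g] using h2.symm)

/-- The maximal ideal of power series over a field is generated by the variables. -/
theorem maximalIdeal_eq_span_X (σ k : Type*) [Finite σ] [Field k] :
    maximalIdeal (MvPowerSeries σ k) = Ideal.span (Set.range MvPowerSeries.X) := by
  refine le_antisymm (fun q hq => ?_) FA.Patch.span_X_le_maximalIdeal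
  rw [← pow_one (Ideal.span _)]
  refine FA.Patch.mem_span_X_pow fun m hm => ?_
  rw [(Finsupp.degree_eq_zero_iff m).1 (by omega), MvPowerSeries.coeff_zero_eq_constantCoeff_apply]
  simpa [maximalIdeal_eq_bot] using FA.Patch.mem_maximalIdeal_iff_coeff.1 hq

/-- The monomial theorem for a complete ring with a chain of primes of length `d`. -/
theorem monomial_of_isAdicComplete {A : Type u} [CommRing A] [IsLocalRing A]
    [IsAdicComplete (maximalIdeal A) A] (hfg : (maximalIdeal A).FG) (p : ℕ) [hp : Fact p.Prime]
    [CharP A p] {d : ℕ} (x : Fin d → A) (hxm : ∀ i, x i ∈ maximalIdeal A) {n₀ : ℕ}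
    (hn₀ : maximalIdeal A ^ n₀ ≤ Ideal.span (Set.range x))
    (l : LTSeries (PrimeSpectrum A)) (hl : l.length = d) (t : ℕ) :
    ∏ i, x i ^ t ∉ Ideal.span (Set.range fun i => x i ^ (t + 1)) := by
  classical
  set k := ResidueField A
  have : CharP k p := (CharP.charP_iff_prime_eq_zero hp.out).2 (by
    rw [← map_natCast (residue A), CharP.cast_eq_zero, map_zero])
  obtain ⟨ι, hι⟩ := CohenStructure.exists_coefficientRingHom A p
  obtain ⟨φ, hφC, hφX⟩ := CohenStructure.exists_evalHom ι x hxm
  set P := MvPowerSeries (Fin d) k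
  let : Algebra P A := φ.toAlgebra
  -- every power of the maximal ideal has a finite complement
  have hfin : ∀ n, ∃ G : Finset A,
      Submodule.span P (G : Set A) ⊔ (maximalIdeal A ^ n).restrictScalars P = ⊤ := by
    intro n
    induction n with
    | zero => exact ⟨∅, by simp⟩
    | succ n ih =>
      obtain ⟨G, hG⟩ := ih
      obtain ⟨H, hH⟩ := hfg.pow (n := n)
      refine ⟨G ∪ H, eq_top_iff.2 (hG.ge.trans (sup_le (le_sup_of_le_left
        (Submodule.span_mono (by simp))) fun z hz => ?_))⟩
      rw [Submodule.restrictScalars_mem, ← hH] at hz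
      induction hz using Submodule.span_induction with
      | mem y hy => exact Submodule.mem_sup_left (Submodule.subset_span (by simp [hy]))
      | zero => exact zero_mem _
      | add y y' _ _ h h' => exact add_mem h h'
      | smul a y hy h =>
        rw [smul_eq_mul, show a * y = (MvPowerSeries.C (residue A a) : P) • y +
          (a - ι (residue A a)) * y by
            rw [Algebra.smul_def, RingHom.algebraMap_toAlgebra, hφC]; ring]
        refine add_mem (Submodule.smul_mem _ _ h) (Submodule.mem_sup_right ?_)
        rw [Submodule.restrictScalars_mem, pow_succ']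
        exact Ideal.mul_mem_mul ((residue_eq_zero_iff _).1 (by simp [hι])) (hH ▸ hy)
  set I := maximalIdeal P
  have hI : I = Ideal.span (Set.range MvPowerSeries.X) := maximalIdeal_eq_span_X _ _
  have hIx : I.map (algebraMap P A) = Ideal.span (Set.range x) := by
    rw [hI, Ideal.map_span, ← Set.range_comp]
    exact congrArg Ideal.span (congrArg Set.range (funext hφX))
  have : Module.Finite P A := by
    obtain ⟨G, hG⟩ := hfin n₀
    have : IsAdicComplete I P := FA.Patch.isAdicComplete_maximalIdeal
    have : IsAdicComplete I (G → P) := IsAdicComplete.of_module_finite I _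
    have : IsHausdorff I A := IsHausdorff.map_algebraMap_iff.1 (by
      rw [hIx]
      exact ⟨fun z hz => IsHausdorff.haus' (I := maximalIdeal A) z fun n => (hz n).mono
        (Submodule.smul_mono_left
          (Ideal.pow_right_mono (Ideal.span_le.2 (Set.range_subset_iff.2 hxm)) n))⟩)
    refine Module.Finite.of_surjective (Fintype.linearCombination P ((↑) : G → A))
      (surjective_of_mkQ_comp_surjective (I := I) ?_)
    rw [← LinearMap.range_eq_top, LinearMap.range_comp, Submodule.map_mkQ_eq_top,
      Fintype.range_linearCombination, Subtype.range_coe_subtype, sup_comm, eq_top_iff]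
    refine hG.ge.trans (sup_le_sup (le_of_eq (by simp)) ?_)
    rw [Ideal.smul_top_eq_map, hIx]
    exact hn₀
  -- kill a prime with a long chain above it
  set P₀ := l.head.asIdeal
  have hdim : ringKrullDim P ≤ d := by
    refine (ringKrullDim_le_spanFinrank_maximalIdeal P).trans (Nat.cast_le.2 ?_)
    rw [show maximalIdeal P = _ from hI]
    refine (Submodule.spanFinrank_span_le_ncard_of_finite (Set.finite_range _)).trans ?_
    rw [← Set.image_univ]
    exact (Set.ncard_image_le Set.finite_univ).trans (by rw [Set.ncard_univ, Nat.card_fin])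
  have hmono : StrictMono (PrimeSpectrum.comap (algebraMap P A)) := fun Q Q' hQ => by
    have hQ' : Q.asIdeal < Q'.asIdeal := hQ
    obtain ⟨y, hy, hy'⟩ := SetLike.exists_of_lt hQ'
    exact Ideal.comap_lt_comap_of_integral_mem_sdiff (hI := Q.isPrime) hQ'.le ⟨hy, hy'⟩
      (Algebra.IsIntegral.isIntegral y)
  set L := l.map _ hmono
  have hbot : P₀.comap (algebraMap P A) = ⊥ := by
    by_contra h
    have h' : (⟨⊥, Ideal.isPrime_bot⟩ : PrimeSpectrum P) < L.head := by
      rw [LTSeries.head_map]
      exact bot_lt_iff_ne_bot.2 h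
    have := (Order.LTSeries.length_le_krullDim (L.cons _ h')).trans hdim
    rw [RelSeries.cons_length, show L.length = d from hl] at this
    exact absurd (Nat.cast_le.1 this) (by omega)
  have hdim' : ringKrullDim P = d :=
    le_antisymm hdim (hl ▸ Order.LTSeries.length_le_krullDim L)
  have : IsDomain P := NoZeroDivisors.to_isDomain _
  set B := A ⧸ P₀
  have : Module.Finite P B := Module.Finite.of_surjective (Ideal.Quotient.mkₐ P P₀).toLinearMap
    Ideal.Quotient.mk_surjective
  have hinj : Function.Injective (algebraMap P B) := by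
    rw [RingHom.injective_iff_ker_eq_bot, ← hbot]
    ext z
    exact Ideal.Quotient.eq_zero_iff_mem
  have : CharP B p := (CharP.charP_iff_prime_eq_zero hp.out).2 (by
    rw [← map_natCast (Ideal.Quotient.mk P₀), CharP.cast_eq_zero, map_zero])
  obtain ⟨θ, hθ⟩ := exists_functional P B hinj
  intro h
  refine not_mem_of_functional (isPermRegular_of_dim (MvPowerSeries.X (R := k)) hI hdim')
    (fun i => hI.ge (Ideal.subset_span (Set.mem_range_self i))) p θ hθ t ?_
  have h' := Ideal.mem_map_of_mem (Ideal.Quotient.mk P₀) h
  rw [Ideal.map_span, ← Set.range_comp] at h'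
  rw [fullPow, powIdeal, coe_univ, Set.image_univ, Ideal.map_span, ← Set.range_comp]
  simp only [Function.comp_def, map_prod, map_pow] at h' ⊢
  change ∏ i, Ideal.Quotient.mk P₀ (φ (MvPowerSeries.X i)) ^ t ∈
    Ideal.span (Set.range fun i => Ideal.Quotient.mk P₀ (φ (MvPowerSeries.X i)) ^ (t + 1))
  simp_rw [hφX]
  exact h'

/-- **Hochster's monomial theorem** in prime characteristic. -/
theorem monomial_theorem (R : Type u) [CommRing R] [IsLocalRing R] [IsNoetherianRing R] (p : ℕ)
    [hp : Fact p.Prime] [CharP R p] {d : ℕ} (hdim : ringKrullDim R = d) (x : Fin d → R)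
    (hx : (Ideal.span (Set.range x)).radical = maximalIdeal R) (t : ℕ) :
    ∏ i, x i ^ t ∉ Ideal.span (Set.range fun i => x i ^ (t + 1)) := by
  classical
  intro h
  set C := AdicCompletion (maximalIdeal R) R
  have : Module.Flat R C := AdicCompletion.flat_of_isNoetherian _
  obtain ⟨l, hl⟩ := Order.le_krullDim_iff.1 (hdim.ge : (d : WithBot ℕ∞) ≤ ringKrullDim R)
  have : (maximalIdeal C).LiesOver (maximalIdeal R) :=
    ⟨(IsLocalRing.maximalIdeal_comap (algebraMap R C)).symm⟩
  obtain ⟨Q, -, hQ, hQl⟩ := Ideal.exists_ideal_le_liesOver_of_le (p := l.last.asIdeal)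
    (q := maximalIdeal R) (maximalIdeal C) (le_maximalIdeal l.last.isPrime.ne_top)
  obtain ⟨L, hL, -, -⟩ := Ideal.exists_ltSeries_of_hasGoingDown l Q
  obtain ⟨n₀, hn₀⟩ := Ideal.exists_radical_pow_le_of_fg (Ideal.span (Set.range x))
    (IsNoetherian.noetherian _)
  rw [hx] at hn₀
  have hmap := AdicCompletion.maximalIdeal_eq_map (R := R)
  have : CharP C p := (CharP.charP_iff_prime_eq_zero hp.out).2 (by
    rw [← map_natCast (algebraMap R C), CharP.cast_eq_zero, map_zero])
  refine monomial_of_isAdicComplete (hmap ▸ (maximalIdeal R).fg_of_isNoetherianRing.map _) p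
    (fun i => algebraMap R C (x i)) (fun i => ?_) (n₀ := n₀) ?_
    L (hL.trans hl) t ?_
  · rw [hmap]
    exact Ideal.mem_map_of_mem _ (hx ▸ Ideal.le_radical (Ideal.subset_span ⟨i, rfl⟩))
  · rw [hmap, ← Ideal.map_pow]
    refine (Ideal.map_mono hn₀).trans ?_
    rw [Ideal.map_span, ← Set.range_comp]
    exact le_rfl
  · have h' := Ideal.mem_map_of_mem (algebraMap R C) h
    rw [Ideal.map_span, ← Set.range_comp] at h'
    simpa only [Function.comp_def, map_prod, map_pow] using h'

end Fermat.Agent.Hochster
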