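import Fermat.Agent.RegularFactorial.Basic
import Mathlib.Algebra.BigOperators.Group.Finset.Basic

/-!
# Permutable regular sequences and their powers
-/

set_option autoImplicit false

noncomputable section

universe u

open IsLocalRing Finset

namespace Fermat.Agent.Hochster

variable {A : Type*} [CommRing A] {ι : Type*} [DecidableEq ι]

/-- Each element is regular modulo any set of the others. -/
def IsPermRegular (x : ι → A) : Prop :=
  ∀ (T : Finset ι) (i : ι), i ∉ T → ∀ a : A,
    x i * a ∈ Ideal.span (x '' (T : Set ι)) → a ∈ Ideal.span (x '' (T : Set ι))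

variable {x : ι → A}

/-- The ideal of powers. -/
def powIdeal (x : ι → A) (e : ι → ℕ) (T : Finset ι) : Ideal A :=
  Ideal.span ((fun j => x j ^ e j) '' (T : Set ι))

theorem powIdeal_insert (e : ι → ℕ) (T : Finset ι) (j : ι) :
    powIdeal x e (insert j T) = Ideal.span {x j ^ e j} ⊔ powIdeal x e T := by
  rw [powIdeal, powIdeal, coe_insert, Set.image_insert_eq, Ideal.span_insert]

omit [DecidableEq ι] in
theorem powIdeal_congr {e e' : ι → ℕ} {T : Finset ι} (h : ∀ j ∈ T, e j = e' j) :
    powIdeal x e T = powIdeal x e' T := by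
  refine congrArg Ideal.span (Set.image_congr fun j hj => ?_)
  rw [h j (mem_coe.1 hj)]

/-- Powers of a permutable regular sequence form one. -/
theorem IsPermRegular.mem_powIdeal (hx : IsPermRegular x) (e : ι → ℕ) (he : ∀ j, 1 ≤ e j)
    (T : Finset ι) (i : ι) (hi : i ∉ T) (a : A) (ha : x i * a ∈ powIdeal x e T) :
    a ∈ powIdeal x e T := by
  induction hn : ∑ j ∈ T, (e j - 1) using Nat.strong_induction_on generalizing e T i a with
  | _ n ih =>
    by_cases hall : ∀ j ∈ T, e j = 1
    · rw [powIdeal_congr (e' := fun _ => 1) hall, powIdeal] at ha ⊢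
      simp only [pow_one] at ha ⊢
      exact hx T i hi a ha
    push Not at hall
    obtain ⟨j, hj, hej⟩ := hall
    set e' := e j - 1 with he'
    have he'1 : 1 ≤ e' := by have := he j; omega
    set T' := T.erase j with hT'
    have hT : T = insert j T' := (insert_erase hj).symm
    have hjT' : j ∉ T' := notMem_erase j T
    have hiT' : i ∉ T' := fun h => hi (mem_of_mem_erase h)
    have hsum : ∑ l ∈ T', (e l - 1) + e' = n := by
      rw [← hn, ← sum_erase_add _ _ hj]
    have hupd : ∀ m, powIdeal x (Function.update e j m) T =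
        Ideal.span {x j ^ m} ⊔ powIdeal x e T' := fun m => by
      rw [hT, powIdeal_insert, Function.update_self, powIdeal_congr fun l hl =>
        Function.update_of_ne (fun h => hjT' (by rwa [← h])) m e]
    have hupd_sum : ∀ m, ∑ l ∈ T, (Function.update e j m l - 1) =
        ∑ l ∈ T', (e l - 1) + (m - 1) := fun m => by
      rw [← sum_erase_add _ _ hj, Function.update_self]
      refine congrArg₂ (· + ·) (sum_congr rfl fun l hl => ?_) rfl
      rw [Function.update_of_ne (ne_of_mem_erase hl)]
    have hupd1 : ∀ m, 1 ≤ m → ∀ l, 1 ≤ Function.update e j m l := fun m hm l => by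
      rcases eq_or_ne l j with rfl | h
      · rwa [Function.update_self]
      · rw [Function.update_of_ne h]; exact he l
    have hej' : e j = e' + 1 := by omega
    rw [hT, powIdeal_insert, hej', Ideal.mem_span_singleton_sup] at ha ⊢
    obtain ⟨c, y, hy, hc⟩ := ha
    have h1 : x i * a ∈ powIdeal x (Function.update e j e') T := by
      rw [hupd, Ideal.mem_span_singleton_sup]
      exact ⟨c * x j, y, hy, by rw [← hc, pow_succ]; ring⟩
    have h2 := ih (∑ l ∈ T', (e l - 1) + (e' - 1)) (by omega) _ (hupd1 e' he'1) T i hi a h1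
      (hupd_sum e')
    rw [hupd, Ideal.mem_span_singleton_sup] at h2
    obtain ⟨g, y', hy', hg⟩ := h2
    have h3 : ∀ m b, x j ^ m * b ∈ powIdeal x e T' → b ∈ powIdeal x e T' := by
      intro m
      induction m with
      | zero => intro b hb; simpa using hb
      | succ m hm =>
        intro b hb
        rw [pow_succ, mul_assoc] at hb
        exact ih (∑ l ∈ T', (e l - 1)) (by omega) e he T' j hjT' b (hm _ hb) rfl
    have h4 : x i * g - x j * c ∈ powIdeal x e T' := by
      refine h3 e' _ ?_
      rw [show x j ^ e' * (x i * g - x j * c) = y - x i * y' by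
        linear_combination x i * hg - hc]
      exact sub_mem hy (Ideal.mul_mem_left _ _ hy')
    have h5 : x i * g ∈ powIdeal x (Function.update e j 1) T := by
      rw [hupd, Ideal.mem_span_singleton_sup]
      exact ⟨c, _, h4, by ring⟩
    have h6 := ih (∑ l ∈ T', (e l - 1) + (1 - 1)) (by omega) _ (hupd1 1 le_rfl) T i hi g h5
      (hupd_sum 1)
    rw [hupd, Ideal.mem_span_singleton_sup] at h6
    obtain ⟨g', y'', hy'', hg'⟩ := h6
    exact ⟨g', x j ^ e' * y'' + y', add_mem (Ideal.mul_mem_left _ _ hy'') hy',
      by rw [← hg, ← hg', pow_succ]; ring⟩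

variable [Fintype ι]

/-- The ideal of all the powers. -/
abbrev fullPow (x : ι → A) (e : ι → ℕ) : Ideal A := powIdeal x e Finset.univ

omit [DecidableEq ι] in
theorem pow_mem_fullPow (x : ι → A) (e : ι → ℕ) (i : ι) {m : ℕ} (h : e i ≤ m) :
    x i ^ m ∈ fullPow x e := by
  rw [← Nat.sub_add_cancel h, pow_add]
  exact Ideal.mul_mem_left _ _ (Ideal.subset_span ⟨i, mem_univ i, rfl⟩)

/-- Colon ideals of ideals of powers. -/
theorem IsPermRegular.colon (hx : IsPermRegular x) (e b : ι → ℕ) (he : ∀ j, 1 ≤ e j)
    (z : A) (hz : (∏ j, x j ^ b j) * z ∈ fullPow x e) : z ∈ fullPow x (fun j => e j - b j) := by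
  induction hn : ∑ j, b j using Nat.strong_induction_on generalizing e b z with
  | _ n ih =>
    by_cases hle : ∃ j, e j ≤ b j
    · obtain ⟨j, hj⟩ := hle
      have h1 : (1 : A) ∈ fullPow x (fun j => e j - b j) := by
        simpa using pow_mem_fullPow x (fun j => e j - b j) j (m := 0) (by simp; omega)
      simpa using Ideal.mul_mem_left _ z h1
    push Not at hle
    by_cases hb : ∀ j, b j = 0
    · simpa [hb] using hz
    push Not at hb
    obtain ⟨i, hi⟩ := hb
    set b' := Function.update b i (b i - 1) with hb'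
    have hprod : ∏ j, x j ^ b j = x i * ∏ j, x j ^ b' j := by
      rw [← mul_prod_erase _ _ (mem_univ i), ← mul_prod_erase _ (fun j => x j ^ b' j) (mem_univ i),
        hb', Function.update_self, ← mul_assoc, ← pow_succ',
        Nat.sub_add_cancel (Nat.one_le_iff_ne_zero.2 hi)]
      refine congrArg (x i ^ b i * ·) (prod_congr rfl fun j hj => ?_)
      rw [Function.update_of_ne (ne_of_mem_erase hj)]
    set e₁ := Function.update e i (e i - 1) with he₁
    have hei : 2 ≤ e i := by have := hle i; omega
    have he₁1 : ∀ j, 1 ≤ e₁ j := fun j => by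
      rcases eq_or_ne j i with rfl | h
      · rw [he₁, Function.update_self]; omega
      · rw [he₁, Function.update_of_ne h]; exact he j
    -- divide by `x i`
    have hdiv : (∏ j, x j ^ b' j) * z ∈ fullPow x e₁ := by
      rw [hprod, mul_assoc, fullPow, ← insert_erase (mem_univ i), powIdeal_insert,
        Ideal.mem_span_singleton_sup] at hz
      obtain ⟨c, y, hy, hcy⟩ := hz
      rw [insert_erase (mem_univ i)] at hcy
      set w := (∏ j, x j ^ b' j) * z
      have h1 : w - c * x i ^ (e i - 1) ∈ powIdeal x e (univ.erase i) := by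
        refine hx.mem_powIdeal e he _ i (notMem_erase i _) _ ?_
        have hpow : x i * x i ^ (e i - 1) = x i ^ e i := by
          rw [← pow_succ', Nat.sub_add_cancel (he i)]
        rw [show x i * (w - c * x i ^ (e i - 1)) = y by linear_combination -hcy - c * hpow]
        exact hy
      rw [fullPow, ← insert_erase (mem_univ i), powIdeal_insert, Ideal.mem_span_singleton_sup,
        he₁, Function.update_self, powIdeal_congr fun j hj =>
          Function.update_of_ne (ne_of_mem_erase hj) (e i - 1) e]
      exact ⟨c, _, h1, add_sub_cancel ..⟩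
    have := ih (∑ j, b' j) (by
      rw [← hn]
      refine sum_lt_sum (fun j _ => ?_) ⟨i, mem_univ i, ?_⟩
      · rcases eq_or_ne j i with rfl | h
        · rw [hb', Function.update_self]; omega
        · rw [hb', Function.update_of_ne h]
      · rw [hb', Function.update_self]; omega) e₁ b' he₁1 z hdiv rfl
    rwa [show (fun j => e j - b j) = fun j => e₁ j - b' j from funext fun j => by
      rcases eq_or_ne j i with rfl | h
      · simp only [he₁, hb', Function.update_self]; omega
      · simp only [he₁, hb', Function.update_of_ne h]]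

/-- The elements killed by part of the sequence in the quotient by an ideal of powers. -/
theorem IsPermRegular.socle_finset (hx : IsPermRegular x) (e : ι → ℕ) (T : Finset ι) (z : A)
    (hz : ∀ i ∈ T, x i * z ∈ fullPow x e) :
    z ∈ fullPow x e ⊔ Ideal.span {∏ j ∈ T, x j ^ (e j - 1)} := by
  by_cases h0 : ∃ j, e j = 0
  · obtain ⟨j, hj⟩ := h0
    have h := Ideal.mul_mem_left _ z (pow_mem_fullPow x e j (m := 0) hj.le)
    exact Ideal.mem_sup_left (by simpa using h)
  push Not at h0
  have he : ∀ j, 1 ≤ e j := fun j => Nat.one_le_iff_ne_zero.2 (h0 j)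
  induction T using Finset.induction with
  | empty => simp
  | insert i T hi ih =>
    have hzi := hz i (mem_insert_self i T)
    have ih := ih fun j hj => hz j (mem_insert_of_mem hj)
    rw [Submodule.mem_sup] at ih
    obtain ⟨y, hy, u, hu, rfl⟩ := ih
    obtain ⟨w, rfl⟩ := Ideal.mem_span_singleton'.1 hu
    refine Ideal.add_mem _ (Ideal.mem_sup_left hy) ?_
    set b : ι → ℕ := fun j => if j ∈ T then e j - 1 else if j = i then 1 else 0 with hb
    have hprod : ∏ j, x j ^ b j = x i * ∏ j ∈ T, x j ^ (e j - 1) := by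
      rw [← prod_sdiff (subset_univ (insert i T)), prod_eq_one, one_mul, prod_insert hi]
      · simp only [hb, if_neg hi, if_true, pow_one]
        exact congrArg (x i * ·) (prod_congr rfl fun j hj => by rw [if_pos hj])
      · intro j hj
        simp only [mem_sdiff, mem_insert, not_or] at hj
        simp [hb, hj.2.1, hj.2.2]
    have hw : w ∈ fullPow x fun j => e j - b j := by
      refine hx.colon _ b he w ?_
      rw [hprod, mul_assoc]
      have h := sub_mem hzi (Ideal.mul_mem_left _ (x i) hy)
      rwa [show x i * (y + w * ∏ j ∈ T, x j ^ (e j - 1)) - x i * y =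
        x i * ((∏ j ∈ T, x j ^ (e j - 1)) * w) by ring] at h
    rw [fullPow, powIdeal] at hw
    clear hu hz hzi ih
    induction hw using Submodule.span_induction with
    | mem g hg =>
      obtain ⟨j, -, rfl⟩ := hg
      by_cases hjT : j ∈ T
      · refine Ideal.mem_sup_left ?_
        rw [← mul_prod_erase _ _ hjT, ← mul_assoc]
        refine Ideal.mul_mem_right _ _ ?_
        rw [← pow_add]
        exact pow_mem_fullPow x _ j (by simp [hb, hjT])
      by_cases hji : j = i
      · subst hji
        refine Ideal.mem_sup_right (Ideal.mem_span_singleton'.2 ⟨1, ?_⟩)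
        rw [one_mul, prod_insert hi]
        simp [hb, hi]
      · exact Ideal.mem_sup_left (Ideal.mul_mem_right _ _
          (pow_mem_fullPow x _ j (by simp [hb, hjT, hji])))
    | zero => simp
    | add a b _ _ ha hb => rw [add_mul]; exact Ideal.add_mem _ ha hb
    | smul c a _ ha => rw [smul_eq_mul, mul_assoc]; exact Ideal.mul_mem_left _ c ha

/-- The socle of `A ⧸ (x ^ (t + 1))` is generated by the product of the `x ^ t`. -/
theorem IsPermRegular.socle (hx : IsPermRegular x) (t : ℕ) (z : A)
    (hz : ∀ i, x i * z ∈ fullPow x fun _ => t + 1) :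
    z ∈ fullPow x (fun _ => t + 1) ⊔ Ideal.span {∏ j, x j ^ t} := by
  simpa using hx.socle_finset (fun _ => t + 1) univ z fun i _ => hz i

omit [DecidableEq ι] in
theorem fullPow_le_pow {I : Ideal A} (hxI : ∀ i, x i ∈ I) (q : ℕ) :
    fullPow x (fun _ => q) ≤ I ^ q := by
  rw [fullPow, powIdeal, Ideal.span_le]
  rintro _ ⟨i, -, rfl⟩
  exact Ideal.pow_mem_pow (hxI i) q

/-- A regular system of parameters is a permutable regular sequence. -/
theorem isPermRegular_of_dim {R : Type u} [CommRing R] [IsLocalRing R] [IsNoetherianRing R] {d : ℕ}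
    (x : Fin d → R) (hgen : maximalIdeal R = Ideal.span (Set.range x))
    (hdim : ringKrullDim R = d) : IsPermRegular x := by
  classical
  intro T i hi a ha
  set I := Ideal.span (x '' (T : Set (Fin d))) with hI
  have hxm : ∀ j, x j ∈ maximalIdeal R := fun j => hgen ▸ Ideal.subset_span (Set.mem_range_self j)
  have hIm : I ≤ maximalIdeal R := Ideal.span_le.2 fun y ⟨j, _, hj⟩ => hj ▸ hxm j
  have : Nontrivial (R ⧸ I) := Ideal.Quotient.nontrivial_iff.2 fun h =>
    (maximalIdeal.isMaximal R).ne_top (top_le_iff.1 (h ▸ hIm))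
  have hloc : IsLocalRing (R ⧸ I) :=
    IsLocalRing.of_surjective' (Ideal.Quotient.mk _) Ideal.Quotient.mk_surjective
  have hmap : maximalIdeal (R ⧸ I) = (maximalIdeal R).map (Ideal.Quotient.mk I) := by
    refine (eq_maximalIdeal ((Ideal.map_eq_top_or_isMaximal_of_surjective _
      Ideal.Quotient.mk_surjective (maximalIdeal.isMaximal R)).resolve_left fun h => ?_)).symm
    have := congrArg (Ideal.comap (Ideal.Quotient.mk I)) h
    rw [Ideal.comap_map_of_surjective _ Ideal.Quotient.mk_surjective, Ideal.comap_top,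
      ← RingHom.ker_eq_comap_bot, Ideal.mk_ker, sup_eq_left.2 hIm] at this
    exact (maximalIdeal.isMaximal R).ne_top this
  have hspan : ∀ U : Finset (Fin d), (∀ j ∉ U, x j ∈ I) →
      (maximalIdeal (R ⧸ I)).spanFinrank ≤ U.card := by
    intro U hU
    have hle : maximalIdeal (R ⧸ I) =
        Ideal.span ((Ideal.Quotient.mk I ∘ x) '' (U : Set (Fin d))) := by
      refine le_antisymm ?_ (Ideal.span_le.2 ?_)
      · rw [hmap, hgen, Ideal.map_span, Ideal.span_le]
        rintro _ ⟨_, ⟨j, rfl⟩, rfl⟩
        by_cases hj : j ∈ U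
        · exact Ideal.subset_span ⟨j, hj, rfl⟩
        · rw [SetLike.mem_coe, Ideal.Quotient.eq_zero_iff_mem.2 (hU j hj)]
          exact zero_mem _
      · rintro _ ⟨j, -, rfl⟩
        rw [SetLike.mem_coe, hmap]
        exact Ideal.mem_map_of_mem _ (hxm j)
    rw [hle]
    exact (Submodule.spanFinrank_span_le_ncard_of_finite (U.finite_toSet.image _)).trans
      ((Set.ncard_image_le U.finite_toSet).trans (Set.ncard_coe_finset U).le)
  obtain ⟨c, hc⟩ := RegularFactorial.exists_natCast_eq_ringKrullDim (R ⧸ I)
  have hlow : d ≤ c + T.card := by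
    have h := ringKrullDim_le_ringKrullDim_quotient_add_card (T.image x) (fun y hy => by
      obtain ⟨j, -, rfl⟩ := Finset.mem_image.1 hy
      rw [IsLocalRing.ringJacobson_eq_maximalIdeal]
      exact hxm j)
    rw [Finset.coe_image, ← hI, hc, hdim] at h
    have h' : d ≤ c + (T.image x).card := by exact_mod_cast h
    exact h'.trans (Nat.add_le_add_left Finset.card_image_le _)
  have hup : ∀ U : Finset (Fin d), (∀ j ∉ U, x j ∈ I) → c ≤ U.card := fun U hU => by
    have h := ringKrullDim_le_spanFinrank_maximalIdeal (R ⧸ I)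
    rw [hc] at h
    exact le_trans (by exact_mod_cast h) (hspan U hU)
  have hTc : ∀ j ∉ Tᶜ, x j ∈ I := fun j hj => Ideal.subset_span ⟨j, by simpa using hj, rfl⟩
  have hcard : Tᶜ.card + T.card = d := by
    rw [card_compl_add_card, Fintype.card_fin]
  have : IsRegularLocalRing (R ⧸ I) :=
    IsRegularLocalRing.of_spanFinrank_maximalIdeal_le _ (by
    rw [hc]
    have := hspan Tᶜ hTc
    exact_mod_cast (by omega : (maximalIdeal (R ⧸ I)).spanFinrank ≤ c))
  have := RegularFactorial.isDomain_of_isRegularLocalRing (R ⧸ I)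
  have hne : Ideal.Quotient.mk I (x i) ≠ 0 := fun h => by
    rw [Ideal.Quotient.eq_zero_iff_mem] at h
    have := hup (Tᶜ.erase i) fun j hj => by
      rcases eq_or_ne j i with rfl | hji
      · exact h
      · exact hTc j fun h' => hj (Finset.mem_erase.2 ⟨hji, h'⟩)
    rw [Finset.card_erase_of_mem (Finset.mem_compl.2 hi)] at this
    have : 0 < Tᶜ.card := Finset.card_pos.2 ⟨i, Finset.mem_compl.2 hi⟩
    omega
  rw [← Ideal.Quotient.eq_zero_iff_mem, map_mul] at ha
  exact Ideal.Quotient.eq_zero_iff_mem.1 ((mul_eq_zero.1 ha).resolve_left hne)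

end Fermat.Agent.Hochster
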